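/-
P-DS row B1-U (helper96): `Fermat.Agent.H20.DS.SepOneStatement`.

For `N ≥ 3` the weight-one Eisenstein series
`t = ∑_{a mod N} (ζ^a - ζ^{-a}) φ_a`, `ζ = exp(2πi/N)`, `φ_a` Hecke's forms
(`Fermat.Agent.H44.phiForm`), has integral `q`-expansion
`(N - 2) + 2N ∑_n (∑_{k ∣ n} [k ≡ 1] - [k ≡ -1]) q^n`
and its stabiliser in `Γ₀(N)` is `Γ₁(N)`.
-/
import Mathlib
import Fermat.Agent.H20.DS.Interfaces2
import Fermat.Agent.H44.DS.PhiForm
import Fermat.Agent.H65.DS.EisOneTransform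
import Fermat.Agent.H80.DS.ZetaBasics
import Fermat.Agent.H30.DS.Holomorphy
import Fermat.Agent.H41.DS.EisOneQExp
import Fermat.Agent.H41.DS.EisOneBounded
import Fermat.Agent.H6.DS.CotExpansion

set_option autoImplicit false

noncomputable section

namespace Fermat.Agent.H96.DS

/-! ### Roots of unity -/

/-- `e_N(m) = exp(2πi m / N)`. -/
def eN (N : ℕ) (m : ℤ) : ℂ := Complex.exp (2 * Real.pi * Complex.I * m / N)

theorem eN_zero (N : ℕ) : eN N 0 = 1 := by simp [eN]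

theorem eN_add (N : ℕ) (m m' : ℤ) : eN N (m + m') = eN N m * eN N m' := by
  unfold eN
  rw [← Complex.exp_add]
  congr 1
  push_cast
  ring

theorem eN_neg (N : ℕ) (m : ℤ) : eN N (-m) = (eN N m)⁻¹ := by
  unfold eN
  rw [← Complex.exp_neg]
  congr 1
  push_cast
  ring

theorem eN_ne_zero (N : ℕ) (m : ℤ) : eN N m ≠ 0 := Complex.exp_ne_zero _

theorem eN_natCast_mul (N : ℕ) (a : ℕ) (m : ℤ) : eN N ((a : ℤ) * m) = eN N m ^ a := by
  unfold eN
  rw [← Complex.exp_nat_mul]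
  congr 1
  push_cast
  ring

theorem eN_eq_one_iff (N : ℕ) [NeZero N] (m : ℤ) : eN N m = 1 ↔ (N : ℤ) ∣ m := by
  have hN : (N : ℂ) ≠ 0 := Nat.cast_ne_zero.mpr (NeZero.ne N)
  have h2 : (2 * Real.pi * Complex.I : ℂ) ≠ 0 := Complex.two_pi_I_ne_zero
  unfold eN
  rw [Complex.exp_eq_one_iff]
  constructor
  · rintro ⟨n, hn⟩
    refine ⟨n, ?_⟩
    have h3 : (m : ℂ) = (N : ℂ) * (n : ℂ) := by
      field_simp at hn
      linear_combination hn
    exact_mod_cast h3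
  · rintro ⟨n, rfl⟩
    refine ⟨n, ?_⟩
    push_cast
    field_simp

theorem sum_eN (N : ℕ) [NeZero N] (m : ℤ) :
    ∑ a ∈ Finset.range N, eN N ((a : ℤ) * m) = if (N : ℤ) ∣ m then (N : ℂ) else 0 := by
  simp_rw [eN_natCast_mul]
  split_ifs with h
  · rw [(eN_eq_one_iff N m).mpr h]
    simp
  · have hne : eN N m ≠ 1 := fun h' => h ((eN_eq_one_iff N m).mp h')
    have hpow : eN N m ^ N = 1 := by
      rw [← eN_natCast_mul]
      exact (eN_eq_one_iff N _).mpr (dvd_mul_right _ _)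
    have h1 := mul_geom_sum (eN N m) N
    rw [hpow, sub_self] at h1
    exact (mul_eq_zero.mp h1).resolve_left (sub_ne_zero.mpr hne)

/-- The coefficient `c_a = ζ^a - ζ^{-a}`. -/
def cN (N : ℕ) (a : ℕ) : ℂ := eN N (a : ℤ) - eN N (-(a : ℤ))

theorem cN_zero (N : ℕ) : cN N 0 = 0 := by simp [cN]

/-- Orthogonality: `∑_a c_a (ζ^{a d} - ζ^{-a d}) = 2N ([d ≡ -1] - [d ≡ 1])`. -/
theorem sum_cN_mul (N : ℕ) [NeZero N] (d : ℤ) :
    ∑ a ∈ Finset.range N, cN N a * (eN N ((a : ℤ) * d) - eN N (-((a : ℤ) * d))) =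
      2 * ((if (N : ℤ) ∣ d + 1 then (N : ℂ) else 0) - (if (N : ℤ) ∣ d - 1 then (N : ℂ) else 0)) := by
  have h : ∀ a : ℕ, cN N a * (eN N ((a : ℤ) * d) - eN N (-((a : ℤ) * d))) =
      eN N ((a : ℤ) * (d + 1)) - eN N ((a : ℤ) * (1 - d)) - eN N ((a : ℤ) * (d - 1))
        + eN N ((a : ℤ) * (-(d + 1))) := by
    intro a
    unfold cN
    rw [sub_mul, mul_sub, mul_sub, ← eN_add, ← eN_add, ← eN_add, ← eN_add]
    have e1 : (a : ℤ) + (a : ℤ) * d = (a : ℤ) * (d + 1) := by ring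
    have e2 : (a : ℤ) + -((a : ℤ) * d) = (a : ℤ) * (1 - d) := by ring
    have e3 : -(a : ℤ) + (a : ℤ) * d = (a : ℤ) * (d - 1) := by ring
    have e4 : -(a : ℤ) + -((a : ℤ) * d) = (a : ℤ) * (-(d + 1)) := by ring
    rw [e1, e2, e3, e4]
    ring
  simp_rw [h, Finset.sum_add_distrib, Finset.sum_sub_distrib, sum_eN]
  have d1 : (N : ℤ) ∣ 1 - d ↔ (N : ℤ) ∣ d - 1 := by
    rw [← dvd_neg]
    have : -(1 - d) = d - 1 := by ring
    rw [this]
  have d2 : (N : ℤ) ∣ -(d + 1) ↔ (N : ℤ) ∣ d + 1 := dvd_neg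
  simp only [d1, d2]
  ring

/-! ### The forms `φ_a` -/

open UpperHalfPlane CongruenceSubgroup ModularFormClass
open scoped MatrixGroups ModularForm Manifold
open Fermat.Agent.H6.DS

theorem sepEisOneTransform : EisOneTransformStatement :=
  Fermat.Agent.H65.eisOneTransform Fermat.Agent.H80.DS.zetaQuasiPeriod

theorem sepCotExpansion : CotExpansionStatement :=
  Fermat.Agent.H6.DS.cotExpansion Fermat.Agent.H80.DS.zetaSummable

theorem sepPhiForm : PhiFormStatement :=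
  Fermat.Agent.H44.phiForm sepEisOneTransform Fermat.Agent.H30.DS.eisOneHolomorphic
    (Fermat.Agent.H41.DS.eisOneQExp sepCotExpansion)
    (Fermat.Agent.H41.DS.eisOneBounded sepCotExpansion sepEisOneTransform)

theorem sep_one_mem_strictPeriods (N : ℕ) :
    (1 : ℝ) ∈ ((Gamma1 N : Subgroup SL(2, ℤ)) : Subgroup (GL (Fin 2) ℝ)).strictPeriods := by
  rw [strictPeriods_Gamma1]
  exact AddSubgroup.mem_zmultiples 1

/-- The `n`-th `q`-coefficient as a linear form on `M₁(Γ₁(N))`. -/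
def sepQCoeffLin (N : ℕ) (n : ℕ) : ModularForm (Gamma1 N) 1 →ₗ[ℂ] ℂ where
  toFun f := qCoeff f n
  map_add' f g := by
    unfold qCoeff
    rw [FunLike.coe_add, ModularForm.qExpansion_add one_pos (sep_one_mem_strictPeriods N) f g,
      map_add]
  map_smul' c f := by
    unfold qCoeff
    rw [FunLike.coe_smul, ModularForm.qExpansion_smul one_pos (sep_one_mem_strictPeriods N) c f]
    simp

theorem sepQCoeffLin_apply (N n : ℕ) (f : ModularForm (Gamma1 N) 1) :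
    sepQCoeffLin N n f = qCoeff f n := rfl

/-- The family `a ↦ φ_a`. -/
theorem exists_phiFamily (N : ℕ) (hN : 2 ≤ N) :
    ∃ F : ℤ → ModularForm (Gamma1 N) 1, ∀ a : ℤ, ¬ (N : ℤ) ∣ a →
      (∀ z : ℍ, F a z = eisOne N ![0, a] (z : ℂ) / (2 * Real.pi * Complex.I)) ∧
      qCoeff (F a) 0 = phiConst N a ∧ ∀ n : ℕ, 1 ≤ n → qCoeff (F a) n = phiCoeff N a n := by
  classical
  have hex : ∀ a : ℤ, ∃ F : ModularForm (Gamma1 N) 1, ¬ (N : ℤ) ∣ a →
      (∀ z : ℍ, F z = eisOne N ![0, a] (z : ℂ) / (2 * Real.pi * Complex.I)) ∧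
      qCoeff F 0 = phiConst N a ∧ ∀ n : ℕ, 1 ≤ n → qCoeff F n = phiCoeff N a n := by
    intro a
    by_cases ha : (N : ℤ) ∣ a
    · exact ⟨0, fun h => absurd ha h⟩
    · obtain ⟨F, hF⟩ := sepPhiForm N hN a ha
      exact ⟨F, fun _ => hF⟩
  choose F hF using hex
  exact ⟨F, hF⟩

theorem phiCoeff_eq (N : ℕ) (a : ℤ) (n : ℕ) :
    phiCoeff N a n = - ∑ k ∈ n.divisors, (eN N (a * (k : ℤ)) - eN N (-(a * (k : ℤ)))) := by
  unfold phiCoeff eN
  congr 1
  refine Finset.sum_congr rfl fun k _ => ?_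
  congr 2
  · push_cast; ring
  · push_cast; ring

theorem phiConst_eq (N : ℕ) (a : ℤ) : phiConst N a = 1 / 2 + 1 / (eN N a - 1) := by
  unfold phiConst eN
  rfl

theorem sep_vecMul_zero_cons (a : ℤ) (γ : SL(2, ℤ)) :
    Matrix.vecMul ![0, a] (γ : Matrix (Fin 2) (Fin 2) ℤ) = ![a * γ 1 0, a * γ 1 1] := by
  ext i
  fin_cases i <;> simp [Matrix.vecMul, dotProduct, Fin.sum_univ_two]

/-- The lower right entry of `γ ∈ Γ₀(N)` is prime to `N`. -/
theorem dvd_of_dvd_mul_lowerRight {N : ℕ} {γ : SL(2, ℤ)} (hγ : γ ∈ Gamma0 N) {a : ℤ}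
    (h : (N : ℤ) ∣ a * γ 1 1) : (N : ℤ) ∣ a := by
  have hc : (N : ℤ) ∣ γ 1 0 := (ZMod.intCast_zmod_eq_zero_iff_dvd _ N).mp (Gamma0_mem.mp hγ)
  have hdet : (γ : Matrix (Fin 2) (Fin 2) ℤ).det = 1 := γ.det_coe
  rw [Matrix.det_fin_two] at hdet
  have e : a = (a * γ 1 1) * γ 0 0 - a * γ 0 1 * γ 1 0 := by
    linear_combination (-a) * hdet
  rw [e]
  exact dvd_sub (Dvd.dvd.mul_right h _) (Dvd.dvd.mul_left hc _)

theorem sep_nonzeroMod {N : ℕ} {a : ℤ} (ha : ¬ (N : ℤ) ∣ a) : NonzeroMod N ![0, a] := by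
  rintro ⟨-, h⟩
  exact ha (by simpa using h)

/-- Transformation of `eisOne N (0, a)` under `γ ∈ Γ₀(N)`. -/
theorem sep_eisOne_gamma0 {N : ℕ} (hN : 2 ≤ N) {γ : SL(2, ℤ)} (hγ : γ ∈ Gamma0 N) {a : ℤ}
    (ha : ¬ (N : ℤ) ∣ a) (z : ℍ) :
    eisOne N ![0, a] ((γ • z : ℍ) : ℂ) = denom γ z * eisOne N ![0, a * γ 1 1] (z : ℂ) := by
  have had : ¬ (N : ℤ) ∣ a * γ 1 1 := fun h => ha (dvd_of_dvd_mul_lowerRight hγ h)
  obtain ⟨T1, -⟩ := sepEisOneTransform N hN _ (sep_nonzeroMod ha)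
  obtain ⟨-, T2⟩ := sepEisOneTransform N hN _ (sep_nonzeroMod had)
  rw [T1 z γ, sep_vecMul_zero_cons]
  congr 1
  have hc : (N : ℤ) ∣ γ 1 0 := (ZMod.intCast_zmod_eq_zero_iff_dvd _ N).mp (Gamma0_mem.mp hγ)
  obtain ⟨b₀, hb₀⟩ := hc
  have := T2 z ![a * b₀, 0]
  rw [← this]
  congr 1
  ext i
  fin_cases i
  · simp only [Fin.zero_eta, Fin.isValue, Matrix.cons_val_zero, Pi.add_apply, Pi.smul_apply,
      smul_eq_mul]
    rw [hb₀]; ring
  · simp only [Fin.mk_one, Fin.isValue, Matrix.cons_val_one, Matrix.cons_val_fin_one,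
      Pi.add_apply, Pi.smul_apply, smul_eq_mul]
    ring

/-! ### The separating form -/

/-- `T_d = ∑_a c_a φ_{a d}`; the separating form is `T_1`, and `T_1 ∣ γ = T_d` for `γ ∈ Γ₀(N)`
with lower right entry `d`. -/
def sepT (N : ℕ) (F : ℤ → ModularForm (Gamma1 N) 1) (d : ℤ) : ModularForm (Gamma1 N) 1 :=
  ∑ a ∈ Finset.range N, cN N a • F ((a : ℤ) * d)

theorem sepT_apply (N : ℕ) (F : ℤ → ModularForm (Gamma1 N) 1) (d : ℤ) (z : ℍ) :
    sepT N F d z = ∑ a ∈ Finset.range N, cN N a * F ((a : ℤ) * d) z := by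
  classical
  unfold sepT
  induction (Finset.range N) using Finset.induction_on with
  | empty => simp
  | insert a s ha ih =>
    rw [Finset.sum_insert ha, Finset.sum_insert ha, FunLike.coe_add, Pi.add_apply,
      FunLike.coe_smul, Pi.smul_apply, ih, smul_eq_mul]

theorem not_dvd_of_mem_range {N a : ℕ} (ha : a ∈ Finset.range N) (ha0 : a ≠ 0) :
    ¬ (N : ℤ) ∣ (a : ℤ) := by
  intro h
  have h1 : N ∣ a := Int.natCast_dvd_natCast.mp h
  have h2 := Nat.le_of_dvd (Nat.pos_of_ne_zero ha0) h1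
  have h3 := Finset.mem_range.mp ha
  omega

section Coefficients

variable {N : ℕ} [NeZero N] (hN : 2 ≤ N) (F : ℤ → ModularForm (Gamma1 N) 1)
  (hF : ∀ a : ℤ, ¬ (N : ℤ) ∣ a →
      (∀ z : ℍ, F a z = eisOne N ![0, a] (z : ℂ) / (2 * Real.pi * Complex.I)) ∧
      qCoeff (F a) 0 = phiConst N a ∧ ∀ n : ℕ, 1 ≤ n → qCoeff (F a) n = phiCoeff N a n)

include hF in
theorem sepT_qCoeff (d : ℤ) (hd : ∀ a : ℤ, (N : ℤ) ∣ a * d → (N : ℤ) ∣ a) (n : ℕ)
    (hn : 1 ≤ n) :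
    qCoeff (sepT N F d) n = - ∑ k ∈ n.divisors,
      2 * ((if (N : ℤ) ∣ d * (k : ℤ) + 1 then (N : ℂ) else 0)
        - (if (N : ℤ) ∣ d * (k : ℤ) - 1 then (N : ℂ) else 0)) := by
  rw [← sepQCoeffLin_apply, sepT]
  simp only [map_sum, map_smul, smul_eq_mul, sepQCoeffLin_apply]
  have h1 : ∀ a ∈ Finset.range N, cN N a * qCoeff (F ((a : ℤ) * d)) n
      = cN N a * phiCoeff N ((a : ℤ) * d) n := by
    intro a ha
    by_cases ha0 : a = 0
    · subst ha0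
      rw [cN_zero, zero_mul, zero_mul]
    · have hnad : ¬ (N : ℤ) ∣ (a : ℤ) * d := fun h => not_dvd_of_mem_range ha ha0 (hd _ h)
      rw [(hF _ hnad).2.2 n hn]
  rw [Finset.sum_congr rfl h1]
  simp_rw [phiCoeff_eq, mul_neg, Finset.sum_neg_distrib, Finset.mul_sum]
  rw [Finset.sum_comm]
  congr 1
  refine Finset.sum_congr rfl fun k _ => ?_
  have := sum_cN_mul N (d * (k : ℤ))
  simp_rw [← mul_assoc] at this
  exact this

include hN hF in
theorem sepT_qCoeff_zero : qCoeff (sepT N F 1) 0 = (N : ℂ) - 2 := by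
  rw [← sepQCoeffLin_apply, sepT]
  simp only [map_sum, map_smul, smul_eq_mul, sepQCoeffLin_apply]
  have h1 : ∀ a ∈ Finset.range N, cN N a * qCoeff (F ((a : ℤ) * 1)) 0
      = eN N ((a : ℤ) * 1) / 2 + eN N ((a : ℤ) * (-1)) / 2 + 1 - (if a = 0 then 2 else 0) := by
    intro a ha
    by_cases ha0 : a = 0
    · subst ha0
      rw [cN_zero, zero_mul, if_pos rfl]
      simp [eN_zero]
      norm_num
    · have hna : ¬ (N : ℤ) ∣ (a : ℤ) := not_dvd_of_mem_range ha ha0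
      rw [mul_one, (hF _ hna).2.1, phiConst_eq, if_neg ha0, sub_zero, mul_neg, mul_one]
      have hne : eN N (a : ℤ) - 1 ≠ 0 := by
        intro h
        exact hna ((eN_eq_one_iff N _).mp (sub_eq_zero.mp h))
      have h0 : eN N (a : ℤ) ≠ 0 := eN_ne_zero N _
      unfold cN
      rw [eN_neg]
      field_simp
      ring
  rw [Finset.sum_congr rfl h1, Finset.sum_sub_distrib, Finset.sum_add_distrib,
    Finset.sum_add_distrib, ← Finset.sum_div, ← Finset.sum_div, sum_eN, sum_eN]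
  have hn1 : ¬ (N : ℤ) ∣ 1 := by
    intro h
    have := Int.le_of_dvd one_pos h
    omega
  have hn2 : ¬ (N : ℤ) ∣ -1 := by
    rw [dvd_neg]
    exact hn1
  rw [if_neg hn1, if_neg hn2]
  have h0 : (0 : ℕ) ∈ Finset.range N := Finset.mem_range.mpr (by omega)
  rw [Finset.sum_ite_eq' (Finset.range N) 0 (fun _ => (2 : ℂ)), if_pos h0]
  simp

omit [NeZero N] in
include hN hF in
/-- `T_1 ∣ γ = T_d` for `γ ∈ Γ₀(N)` with lower right entry `d`. -/
theorem sepT_slash {γ : SL(2, ℤ)} (hγ : γ ∈ Gamma0 N) (z : ℍ) :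
    ((⇑(sepT N F 1)) ∣[(1 : ℤ)] γ) z = sepT N F (γ 1 1) z := by
  rw [ModularForm.SL_slash_apply, sepT_apply, sepT_apply, Finset.sum_mul]
  refine Finset.sum_congr rfl fun a ha => ?_
  by_cases ha0 : a = 0
  · subst ha0
    rw [cN_zero, zero_mul, zero_mul, zero_mul]
  · have hna : ¬ (N : ℤ) ∣ (a : ℤ) := not_dvd_of_mem_range ha ha0
    have hnad : ¬ (N : ℤ) ∣ (a : ℤ) * γ 1 1 := fun h => hna (dvd_of_dvd_mul_lowerRight hγ h)
    rw [mul_one, (hF _ hna).1, (hF _ hnad).1, sep_eisOne_gamma0 hN hγ hna z]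
    have hd : denom γ z ≠ 0 := denom_ne_zero γ z
    rw [zpow_neg, zpow_one]
    field_simp

end Coefficients

/-- **B1-U.** -/
theorem sepOne : Fermat.Agent.H20.DS.SepOneStatement := by
  intro N _ hN3
  have hN2 : 2 ≤ N := by omega
  have hNC : (N : ℂ) ≠ 0 := Nat.cast_ne_zero.mpr (NeZero.ne N)
  obtain ⟨F, hF⟩ := exists_phiFamily N hN2
  have hd1 : ∀ a : ℤ, (N : ℤ) ∣ a * 1 → (N : ℤ) ∣ a := fun a h => by rwa [mul_one] at h
  refine ⟨sepT N F 1, ?_, ?_⟩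
  · intro n
    show ∃ m : ℤ, qCoeff (sepT N F 1) n = (m : ℂ)
    rcases Nat.eq_zero_or_pos n with rfl | hn
    · refine ⟨(N : ℤ) - 2, ?_⟩
      rw [sepT_qCoeff_zero hN2 F hF]
      push_cast
      rfl
    · refine ⟨- ∑ k ∈ n.divisors, 2 * ((if (N : ℤ) ∣ 1 * (k : ℤ) + 1 then (N : ℤ) else 0)
        - (if (N : ℤ) ∣ 1 * (k : ℤ) - 1 then (N : ℤ) else 0)), ?_⟩
      rw [sepT_qCoeff F hF 1 hd1 n hn]
      push_cast
      rfl
  · intro γ hγ hfix
    have hd : ∀ a : ℤ, (N : ℤ) ∣ a * γ 1 1 → (N : ℤ) ∣ a :=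
      fun a h => dvd_of_dvd_mul_lowerRight hγ h
    have heq : sepT N F (γ 1 1) = sepT N F 1 := by
      apply DFunLike.ext
      intro z
      rw [← sepT_slash hN2 F hF hγ z, hfix]
    have h1 := sepT_qCoeff F hF (γ 1 1) hd 1 le_rfl
    have h2 := sepT_qCoeff F hF 1 hd1 1 le_rfl
    rw [heq, h2] at h1
    simp only [Nat.divisors_one, Finset.sum_singleton, Nat.cast_one, mul_one] at h1
    have hn2 : ¬ (N : ℤ) ∣ 1 + 1 := by
      intro h
      have := Int.le_of_dvd (by norm_num) h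
      omega
    have h0 : (N : ℤ) ∣ 1 - 1 := by simp
    rw [if_neg hn2, if_pos h0] at h1
    have hdvd : (N : ℤ) ∣ γ 1 1 - 1 := by
      by_contra hnot
      rw [if_neg hnot] at h1
      split_ifs at h1 with hx
      · apply hNC
        linear_combination (1 / 4 : ℂ) * h1
      · apply hNC
        linear_combination (1 / 2 : ℂ) * h1
    have hc : ((γ 1 0 : ℤ) : ZMod N) = 0 := Gamma0_mem.mp hγ
    have hd11 : ((γ 1 1 : ℤ) : ZMod N) = 1 := by
      have := (ZMod.intCast_zmod_eq_zero_iff_dvd _ N).mpr hdvd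
      push_cast at this
      exact sub_eq_zero.mp this
    have hdet : (γ : Matrix (Fin 2) (Fin 2) ℤ).det = 1 := γ.det_coe
    rw [Matrix.det_fin_two] at hdet
    have hdet' := congrArg (Int.cast : ℤ → ZMod N) hdet
    push_cast at hdet'
    rw [hd11, hc, mul_one, mul_zero, sub_zero] at hdet'
    rw [Gamma1_mem]
    exact ⟨hdet', hd11, hc⟩

end Fermat.Agent.H96.DS

end
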